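import Fermat.Agent.S31.Core
import Fermat.Agent.ES.KMain
import Fermat.Agent.ES.TIota
import Fermat.Agent.ES.TExist
import Fermat.Agent.ES.TMerInv
import Fermat.Agent.ES.KEmb
import Fermat.Agent.ES.KDiv

/-!
# S31 : the ES input `HasInput N p` from the blocks KRON, TORS and the injectivity statement `INJ`
-/

set_option autoImplicit false

namespace Fermat.Agent.S31

open CongruenceSubgroup CuspForm Fermat.Agent.S16 Fermat.Agent.S24 Fermat.Agent.ES

namespace Wrap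

/-- the output of the block TORS at an arbitrary exponent. -/
theorem hyp (N : ℕ) [NeZero N] (M : ℕ) [NeZero M] : Supp.Hyp N M where
  exists_TRel := fun f hf => exists_TRel N M f hf
  merinv := fun w hw => exists_pow_eq_of_invariant N M w hw
  hecke := fun ℓ _ hℓ hℓN _ _ h =>
    TRel.hecke hℓ hℓN (heckeRep_det_pos ℓ) (fun u => Psi_heckeMul N ℓ hℓN u) h
  heckeU_mem := fun ℓ _ u hu => heckeU_mem M N ℓ u hu

open Classical in
/-- the Hecke operators on `KV M N`, indexed by all natural numbers (junk value at `0`). -/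
noncomputable def hk (M N : ℕ) [NeZero N] (ℓ : ℕ) : Module.End (ZMod M) (KV M N) :=
  if h : ℓ = 0 then 0 else
    haveI : NeZero ℓ := ⟨h⟩
    heckeV M N ℓ

theorem hk_eq (M N : ℕ) [NeZero N] (ℓ : ℕ) [NeZero ℓ] : hk M N ℓ = heckeV M N ℓ := by
  rw [hk, dif_neg (NeZero.ne ℓ)]

theorem input (N : ℕ) [NeZero N] (M : ℕ) [NeZero M]
    (hINJ : ∀ ℓ : ℕ, ℓ.Prime → ¬ ℓ ∣ N * M → ∀ A : ValuationSubring Kb, A.LiesOverPrime ℓ →
      INJ M N A) :
    Input N M (KV M N) (galV M N) (hk M N) (Supp.iota (hyp N M)) where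
  tors := KV.nsmul_eq_zero
  smooth := galV_smooth M N
  inertia := fun ℓ hℓ hℓNM A hA τ hτ =>
    haveI : Fact ℓ.Prime := ⟨hℓ⟩
    galV_inertia M N ℓ A hA (hINJ ℓ hℓ hℓNM A hA) τ hτ
  es := fun ℓ hℓ hℓNM A hA σ hσ => by
    haveI : Fact ℓ.Prime := ⟨hℓ⟩
    rw [hk_eq]
    exact eichler_shimura M N ℓ (fun h => hℓNM (Dvd.dvd.mul_right h M)) A hA
      (hINJ ℓ hℓ hℓNM A hA) σ hσ
  ker := fun f hf => Supp.mem_of_iota_eq_zero (hyp N M) f hf
  equiv := fun ℓ hℓ hℓN f f' hf' => by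
    haveI : Fact ℓ.Prime := ⟨hℓ⟩
    have e : f' = Supp.heckeL hℓ hℓN f := Subtype.ext hf'
    rw [hk_eq, e, ← Supp.lift_iota (hyp N M) ℓ hℓ hℓN f, Supp.iota_apply,
      heckeV_mk M N ℓ ((hyp N M).heckeU_mem ℓ), KV.lift_mk]

end Wrap

/-- the ES input from `INJ`. -/
theorem hasInput_of_INJ (N : ℕ) [NeZero N] (p : ℕ) (hp : p.Prime)
    (hINJ : ∀ (m ℓ : ℕ), 0 < m → ℓ.Prime → ¬ ℓ ∣ N * m → ∀ A : ValuationSubring Kb,
      A.LiesOverPrime ℓ → INJ m N A) :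
    HasInput N p := by
  intro r
  haveI : NeZero (p ^ r) := ⟨pow_ne_zero _ hp.ne_zero⟩
  exact ⟨ZMod (p ^ r), inferInstance, KV (p ^ r) N, inferInstance, inferInstance, galV (p ^ r) N,
    Wrap.hk (p ^ r) N, Supp.iota (Wrap.hyp N (p ^ r)),
    Wrap.input N (p ^ r) (hINJ (p ^ r) · (pow_pos hp.pos r))⟩

end Fermat.Agent.S31
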