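import Mathlib

/-!
# S31, package [b] : LUCAS

The Lucas sequence `V₀ = 2`, `V₁ = a`, `V_{k+2} = a V_{k+1} - d V_k` in an arbitrary ring.

* `pow_add_pow` : `s + s' = a`, `s s' = s' s = d` ⇒ `s ^ k + s' ^ k = V_k(a, d)`;
* `units_pow_add` : `s` invertible, `d` commuting with `s`, `s + d s⁻¹ = a` ⇒
  `s ^ k + d ^ k s⁻ᵏ = V_k(a, d)`;
* `trace_pow` : characteristic polynomial `X² - a X + d` on a free module of rank two ⇒
  `tr (s ^ k) = V_k(a, d)`.
-/

set_option autoImplicit false

namespace Fermat.Agent.S31.Lucas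

open Module Polynomial

/-- the Lucas sequence `V_k(a, d)`. -/
def lucasV {E : Type*} [Ring E] (a d : E) : ℕ → E
  | 0 => 2
  | 1 => a
  | (k + 2) => a * lucasV a d (k + 1) - d * lucasV a d k

section Ring

variable {E : Type*} [Ring E]

@[simp] theorem lucasV_zero (a d : E) : lucasV a d 0 = 2 := by rw [lucasV]

@[simp] theorem lucasV_one (a d : E) : lucasV a d 1 = a := by rw [lucasV]

theorem lucasV_succ_succ (a d : E) (k : ℕ) :
    lucasV a d (k + 2) = a * lucasV a d (k + 1) - d * lucasV a d k := by rw [lucasV]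

/-- a sequence satisfying the recursion is the Lucas sequence. -/
theorem eq_lucasV (a d : E) (u : ℕ → E) (h0 : u 0 = 2) (h1 : u 1 = a)
    (h : ∀ k, u (k + 2) = a * u (k + 1) - d * u k) (k : ℕ) : u k = lucasV a d k := by
  induction k using Nat.strong_induction_on with
  | _ k ih =>
    match k with
    | 0 => rw [h0, lucasV_zero]
    | 1 => rw [h1, lucasV_one]
    | (k + 2) => rw [h, lucasV_succ_succ, ih (k + 1) (by omega), ih k (by omega)]

theorem map_lucasV {E' : Type*} [Ring E'] (f : E →+* E') (a d : E) (k : ℕ) :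
    f (lucasV a d k) = lucasV (f a) (f d) k :=
  eq_lucasV (f a) (f d) (fun k => f (lucasV a d k)) (by simp only [lucasV_zero, map_ofNat])
    (by simp)
    (fun k => by simp only [lucasV_succ_succ, map_sub, map_mul]) k

theorem pow_add_pow {s s' a d : E} (ha : s + s' = a) (h1 : s * s' = d) (h2 : s' * s = d) (k : ℕ) :
    s ^ k + s' ^ k = lucasV a d k := by
  refine eq_lucasV a d (fun k => s ^ k + s' ^ k) ?_ ?_ (fun k => ?_) k
  · simp only [pow_zero]; exact one_add_one_eq_two
  · simp only [pow_one]; exact ha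
  · show s ^ (k + 2) + s' ^ (k + 2) = a * (s ^ (k + 1) + s' ^ (k + 1)) - d * (s ^ k + s' ^ k)
    rw [← ha, ← h1]
    have e1 : s * s' * (s ^ k + s' ^ k) = s' * s ^ (k + 1) + s * s' ^ (k + 1) := by
      have e2 : s * s' = s' * s := h1.trans h2.symm
      rw [mul_add, pow_succ' s k, pow_succ' s' k, ← mul_assoc, ← mul_assoc, ← e2]
    rw [e1, pow_succ' s (k + 1), pow_succ' s' (k + 1), add_mul, mul_add, mul_add]
    abel

theorem units_pow_add (s : Eˣ) {a d : E} (hd : Commute d (s : E))
    (h : (s : E) + d * ((s⁻¹ : Eˣ) : E) = a) (k : ℕ) :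
    (s : E) ^ k + d ^ k * ((s⁻¹ : Eˣ) : E) ^ k = lucasV a d k := by
  have hd' : Commute d ((s⁻¹ : Eˣ) : E) := hd.units_inv_right
  rw [← hd'.mul_pow]
  refine pow_add_pow h ?_ ?_ k
  · rw [← mul_assoc, ← hd.eq, mul_assoc, Units.mul_inv, mul_one]
  · rw [mul_assoc, Units.inv_mul, mul_one]

end Ring

section Trace

variable {T : Type*} [CommRing T] [Nontrivial T] {V : Type*} [AddCommGroup V] [Module T V]
  [Module.Free T V] [Module.Finite T V]

theorem charpoly_eq_of_finrank_two (hV : finrank T V = 2) (f : End T V) :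
    f.charpoly = X ^ 2 - C (LinearMap.trace T V f) * X + C (LinearMap.det f) := by
  classical
  let b := Module.finBasisOfFinrankEq T V hV
  rw [← LinearMap.charpoly_toMatrix f b, Matrix.charpoly_fin_two,
    LinearMap.trace_eq_matrix_trace T b, ← LinearMap.det_toMatrix b]

theorem trace_eq_of_charpoly (hV : finrank T V = 2) {s : End T V} {a d : T}
    (h : s.charpoly = X ^ 2 - C a * X + C d) : LinearMap.trace T V s = a := by
  rw [charpoly_eq_of_finrank_two hV] at h
  have := congrArg (fun p => p.coeff 1) h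
  simpa [coeff_X, coeff_C] using this

theorem det_eq_of_charpoly (hV : finrank T V = 2) {s : End T V} {a d : T}
    (h : s.charpoly = X ^ 2 - C a * X + C d) : LinearMap.det s = d := by
  rw [charpoly_eq_of_finrank_two hV] at h
  have := congrArg (fun p => p.coeff 0) h
  simpa [coeff_X, coeff_C] using this

/-- `tr (s ^ k) = V_k(a, d)` if the characteristic polynomial of `s` is `X² - a X + d`. -/
theorem trace_pow (hV : finrank T V = 2) {s : End T V} {a d : T}
    (h : s.charpoly = X ^ 2 - C a * X + C d) (k : ℕ) :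
    LinearMap.trace T V (s ^ k) = lucasV a d k := by
  refine eq_lucasV a d (fun k => LinearMap.trace T V (s ^ k)) ?_ ?_ (fun k => ?_) k
  · simp only [pow_zero]
    rw [LinearMap.trace_one, hV]; norm_num
  · simp only [pow_one]
    exact trace_eq_of_charpoly hV h
  · show LinearMap.trace T V (s ^ (k + 2))
      = a * LinearMap.trace T V (s ^ (k + 1)) - d * LinearMap.trace T V (s ^ k)
    have h1 := LinearMap.aeval_self_charpoly s
    rw [h] at h1
    simp only [map_add, map_sub, map_mul, map_pow, aeval_X, aeval_C] at h1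
    have h2 : s ^ (k + 2) = a • s ^ (k + 1) - d • s ^ k := by
      have h3 : s ^ 2 = a • s - d • (1 : End T V) := by
        rw [Algebra.algebraMap_eq_smul_one, Algebra.algebraMap_eq_smul_one, smul_mul_assoc,
          one_mul] at h1
        rw [eq_sub_iff_add_eq, ← sub_eq_zero, ← h1]
        abel
      rw [add_comm k 2, pow_add, h3, sub_mul, smul_mul_assoc, smul_mul_assoc, one_mul, ← pow_succ',
        ]
    rw [h2, map_sub, map_smul, map_smul, smul_eq_mul, smul_eq_mul]

end Trace

end Fermat.Agent.S31.Lucas
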