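import Fermat.Agent.ES.ECyc

/-!
# S31 : roots of unity of arbitrary order `M`, Frobenius and inertia
-/

set_option autoImplicit false

namespace Fermat.Agent.S31.CycM

open Fermat.Agent.S24 Fermat.Agent.ES

variable {A : ValuationSubring Kb}

/-- if an element `s` of the decomposition group acts on the residue field as `x ↦ x ^ m`, then
it acts on the `M`-th roots of unity (`M` prime to the residue characteristic) as `ζ ↦ ζ ^ m`. -/
theorem apply_zeta {M : ℕ} [NeZero M] {ζ : Kb} (hζ : IsPrimitiveRoot ζ M) {ℓ : ℕ}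
    (hℓ : ℓ.Prime) (hℓM : ¬ ℓ ∣ M) (hA : A.LiesOverPrime ℓ) (s : A.decompositionSubgroup ℚ) (m : ℕ)
    (hs : ∀ z : IsLocalRing.ResidueField A, s • z = z ^ m) :
    (s : GQ) ζ = ζ ^ m := by
  have hM : M ≠ 0 := NeZero.ne M
  have hζA : ζ ∈ A := ECyc.mem_of_pow_eq_one hM hζ.pow_eq_one
  set ζA : A := ⟨ζ, hζA⟩ with hζAdef
  have h1 : IsPrimitiveRoot ζA M :=
    IsPrimitiveRoot.of_map_of_injective (f := A.subtype) hζ Subtype.val_injective
  have := ECyc.charP_residue hℓ hA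
  have hpne : ((M : ℕ) : IsLocalRing.ResidueField A) ≠ 0 := by
    intro h0
    exact hℓM ((CharP.cast_eq_zero_iff (IsLocalRing.ResidueField A) ℓ M).mp h0)
  have h2 : IsPrimitiveRoot (IsLocalRing.residue A ζA) M :=
    ECyc.isPrimitiveRoot_map (IsLocalRing.residue A) h1 hpne
  obtain ⟨v, -, h3⟩ : ∃ v < M, ζ ^ v = (s : GQ) ζ :=
    hζ.eq_pow_of_pow_eq_one (by rw [← map_pow, hζ.pow_eq_one, map_one])
  have h4 : s • ζA = ζA ^ v := Subtype.ext h3.symm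
  have h5 := hs (IsLocalRing.residue A ζA)
  rw [← IsLocalRing.ResidueField.residue_smul, h4, map_pow] at h5
  have hfin : IsOfFinOrder (IsLocalRing.residue A ζA) :=
    isOfFinOrder_iff_pow_eq_one.mpr ⟨M, Nat.pos_of_ne_zero hM, h2.pow_eq_one⟩
  have h6 : v ≡ m [MOD M] := by
    have := hfin.pow_eq_pow_iff_modEq.mp h5
    rwa [← h2.eq_orderOf] at this
  have hfin' : IsOfFinOrder ζ :=
    isOfFinOrder_iff_pow_eq_one.mpr ⟨M, Nat.pos_of_ne_zero hM, hζ.pow_eq_one⟩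
  rw [← h3]
  apply hfin'.pow_eq_pow_iff_modEq.mpr
  rwa [← hζ.eq_orderOf]

/-- a Frobenius element at `ℓ ∤ M` raises the `M`-th roots of unity to the power `ℓ`. -/
theorem frobenius_zeta {M : ℕ} [NeZero M] {ζ : Kb} (hζ : IsPrimitiveRoot ζ M) {ℓ : ℕ}
    (hℓ : ℓ.Prime) (hℓM : ¬ ℓ ∣ M) (hA : A.LiesOverPrime ℓ) (σ : GQ) (hσ : A.IsFrobeniusAt σ ℓ) :
    σ ζ = ζ ^ ℓ :=
  apply_zeta hζ hℓ hℓM hA ⟨σ, hσ.mem_decompositionSubgroup⟩ ℓ hσ.smul_residue_eq

/-- the inertia group at `ℓ ∤ M` fixes the `M`-th roots of unity. -/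
theorem inertia_zeta {M : ℕ} [NeZero M] {ζ : Kb} (hζ : IsPrimitiveRoot ζ M) {ℓ : ℕ}
    (hℓ : ℓ.Prime) (hℓM : ¬ ℓ ∣ M) (hA : A.LiesOverPrime ℓ) (τ : GQ)
    (hτ : τ ∈ A.inertiaSubgroupIn ℚ) : τ ζ = ζ := by
  obtain ⟨τ', hτ', rfl⟩ := hτ
  have h1 : ∀ z : IsLocalRing.ResidueField A, τ' • z = z ^ 1 := fun z => by
    have := DFunLike.congr_fun (show MulSemiringAction.toRingAut (A.decompositionSubgroup ℚ)
      (IsLocalRing.ResidueField A) τ' = 1 from hτ') z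
    rw [pow_one]
    exact this
  have := apply_zeta hζ hℓ hℓM hA τ' 1 h1
  rw [pow_one] at this
  exact this

/-- powers of a Frobenius element. -/
theorem pow_apply_zeta {ζ : Kb} {ℓ : ℕ} (σ : GQ) (h : σ ζ = ζ ^ ℓ) (k : ℕ) :
    (σ ^ k) ζ = ζ ^ (ℓ ^ k) := by
  induction k with
  | zero => simp
  | succ k ih =>
    rw [pow_succ', AlgEquiv.mul_apply, ih, map_pow, h, ← pow_mul, pow_succ']

end Fermat.Agent.S31.CycM
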