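import Mathlib
import Fermat.Agent.ES.BN
import Fermat.Prelude.Def_GaloisRep_Adic

/-!
# S31, package [a] : TRACE-KILL

`T` a local ring, `V` a finite free `T`-module, `ρ : G →* End_T V` residually absolutely
irreducible.  Then `ρ(G)` spans `End_T V` over `T` (Burnside over the algebraic closure of the
residue field, descent to the residue field by the trace form, Nakayama), and therefore
`tr ρ(τ g) = tr ρ(g)` for all `g` forces `ρ(τ) = 1`.
-/

set_option autoImplicit false

namespace Fermat.Agent.S31.TraceKill

open Module Fermat.Agent.ES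
open scoped TensorProduct

section Ring

variable {T : Type*} [CommRing T] {V : Type*} [AddCommGroup V] [Module T V]
  [Module.Free T V] [Module.Finite T V]

/-- the trace form of `End_T V` is nondegenerate (finite free module over a commutative ring). -/
theorem eq_zero_of_trace_mul (a : End T V) (h : ∀ z : End T V, LinearMap.trace T V (a * z) = 0) :
    a = 0 := by
  ext w
  rw [LinearMap.zero_apply, ← Module.forall_dual_apply_eq_zero_iff T]
  intro f
  have := h (f.smulRight w)
  have e : a * f.smulRight w = f.smulRight (a w) := by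
    ext x
    simp
  rwa [e, LinearMap.trace_smulRight] at this

/-- if `S` spans `End_T V` and `tr (a s) = 0` for `s ∈ S` then `a = 0`. -/
theorem eq_zero_of_trace_mul_of_span {S : Set (End T V)} (hS : Submodule.span T S = ⊤)
    (a : End T V) (h : ∀ z ∈ S, LinearMap.trace T V (a * z) = 0) : a = 0 := by
  refine eq_zero_of_trace_mul a fun z => ?_
  have hz : z ∈ Submodule.span T S := hS ▸ Submodule.mem_top
  induction hz using Submodule.span_induction with
  | mem x hx => exact h x hx
  | zero => rw [mul_zero, map_zero]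
  | add x y _ _ hx hy => rw [mul_add, map_add, hx, hy, add_zero]
  | smul c x _ hx => rw [mul_smul_comm, map_smul, hx, smul_zero]

end Ring

section Field

variable {G : Type*} [Group G] {k K : Type*} [Field k] [Field K] [Algebra k K]
  {V : Type*} [AddCommGroup V] [Module k V] [FiniteDimensional k V]

/-- every linear form on `End_k V` is `Y ↦ tr (X Y)`. -/
theorem exists_trace_repr (f : End k V →ₗ[k] k) :
    ∃ X : End k V, ∀ Y, f Y = LinearMap.trace k V (X * Y) := by
  let Φ : End k V →ₗ[k] Module.Dual k (End k V) :=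
    (LinearMap.compr₂ (LinearMap.mul k (End k V)) (LinearMap.trace k V))
  have hΦ : ∀ X Y, Φ X Y = LinearMap.trace k V (X * Y) := fun X Y => rfl
  have hinj : Function.Injective Φ := by
    rw [← LinearMap.ker_eq_bot, LinearMap.ker_eq_bot']
    intro X hX
    exact eq_zero_of_trace_mul X fun z => by rw [← hΦ, hX, LinearMap.zero_apply]
  have hsurj : Function.Surjective Φ :=
    (LinearMap.injective_iff_surjective_of_finrank_eq_finrank
      (Subspace.dual_finrank_eq).symm).1 hinj
  obtain ⟨X, hX⟩ := hsurj f
  exact ⟨X, fun Y => by rw [← hΦ, hX]⟩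

omit [FiniteDimensional k V] in
/-- base change of endomorphisms along a field extension is injective. -/
theorem baseChange_eq_zero (X : End k V) (h : X.baseChange K = 0) : X = 0 := by
  ext v
  have h1 : (X.baseChange K) ((1 : K) ⊗ₜ[k] v) = 0 := by rw [h, LinearMap.zero_apply]
  rw [LinearMap.baseChange_tmul] at h1
  simpa using h1

/-- absolutely irreducible ⇒ the image spans the endomorphism algebra already over `k`. -/
theorem span_eq_top_of_isIrr [IsAlgClosed K] [Nontrivial V] (ρ : G →* End k V)
    (ρ' : G →* End K (K ⊗[k] V)) (hρ' : ∀ g, ρ' g = (ρ g).baseChange K) (h : BN.IsIrr ρ') :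
    Submodule.span k (Set.range ρ) = ⊤ := by
  by_contra hne
  obtain ⟨f, hf0, hf⟩ := Submodule.exists_le_ker_of_lt_top _ (lt_top_iff_ne_top.2 hne)
  obtain ⟨X, hX⟩ := exists_trace_repr f
  have hX0 : X ≠ 0 := by
    rintro rfl
    exact hf0 (LinearMap.ext fun Y => by rw [hX, zero_mul, map_zero, LinearMap.zero_apply])
  have : Nontrivial (K ⊗[k] V) := by
    apply Module.nontrivial_of_finrank_pos (R := K)
    rw [Module.finrank_baseChange]
    exact Module.finrank_pos
  have hsurj := BN.lin_surjective h
  refine hX0 (baseChange_eq_zero (K := K) X (BN.eq_zero_of_trace_mul _ fun z => ?_))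
  obtain ⟨y, rfl⟩ := hsurj z
  induction y using MonoidAlgebra.induction_on with
  | of g =>
    have h1 : BN.lin ρ' (MonoidAlgebra.of K G g) = (ρ g).baseChange K := by
      rw [← hρ']; simp
    rw [h1, ← LinearMap.baseChange_mul, LinearMap.trace_baseChange, ← hX]
    have : f (ρ g) = 0 := hf (Submodule.subset_span ⟨g, rfl⟩)
    rw [this, map_zero]
  | add x y hx hy => rw [map_add, mul_add, map_add, hx, hy, add_zero]
  | smul r x hx => rw [map_smul, mul_smul_comm, map_smul, hx, smul_zero]

end Field

section Local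

variable {G : Type*} [Group G] {T : Type*} [CommRing T] [IsLocalRing T]
  {V : Type*} [AddCommGroup V] [Module T V] [Module.Free T V] [Module.Finite T V]

local notation "𝕜" => IsLocalRing.ResidueField T

/-- an endomorphism which vanishes residually lies in `𝔪 End V`. -/
theorem mem_smul_top_of_baseChange_eq_zero (Z : End T V) (h : Z.baseChange 𝕜 = 0) :
    Z ∈ IsLocalRing.maximalIdeal T • (⊤ : Submodule T (End T V)) := by
  classical
  let b := Module.Free.chooseBasis T V
  have h1 := LinearMap.toMatrix_baseChange 𝕜 Z b b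
  rw [h, map_zero] at h1
  have hent : ∀ i j, LinearMap.toMatrix b b Z i j ∈ IsLocalRing.maximalIdeal T := by
    intro i j
    have := congrFun (congrFun h1 i) j
    rw [Matrix.map_apply, Matrix.zero_apply, IsLocalRing.ResidueField.algebraMap_eq] at this
    exact (IsLocalRing.residue_eq_zero_iff _).1 this.symm
  have h2 : Z = ∑ i, ∑ j, LinearMap.toMatrix b b Z i j •
      (LinearMap.toMatrix b b).symm (Matrix.single i j (1 : T)) := by
    apply (LinearMap.toMatrix b b).injective
    simp only [map_sum, map_smul, LinearEquiv.apply_symm_apply]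
    conv_lhs => rw [Matrix.matrix_eq_sum_single (LinearMap.toMatrix b b Z)]
    refine Finset.sum_congr rfl fun i _ => Finset.sum_congr rfl fun j _ => ?_
    rw [Matrix.smul_single, smul_eq_mul, mul_one]
  rw [h2]
  exact Submodule.sum_mem _ fun i _ => Submodule.sum_mem _ fun j _ =>
    Submodule.smul_mem_smul (hent i j) Submodule.mem_top

/-- Nakayama: if the residual image spans, the image spans. -/
theorem span_eq_top_of_residual (ρ : G →* End T V)
    (h : Submodule.span 𝕜 (Set.range fun g => (ρ g).baseChange 𝕜) = ⊤) :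
    Submodule.span T (Set.range ρ) = ⊤ := by
  have key : ∀ W ∈ Submodule.span 𝕜 (Set.range fun g => (ρ g).baseChange 𝕜),
      ∃ Y ∈ Submodule.span T (Set.range ρ), Y.baseChange 𝕜 = W := by
    intro W hW
    induction hW using Submodule.span_induction with
    | mem x hx =>
      obtain ⟨g, rfl⟩ := hx
      exact ⟨ρ g, Submodule.subset_span ⟨g, rfl⟩, rfl⟩
    | zero => exact ⟨0, Submodule.zero_mem _, LinearMap.baseChange_zero⟩
    | add x y _ _ hx hy =>
      obtain ⟨X, hX, rfl⟩ := hx
      obtain ⟨Y, hY, rfl⟩ := hy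
      exact ⟨X + Y, Submodule.add_mem _ hX hY, LinearMap.baseChange_add _ _⟩
    | smul c x _ hx =>
      obtain ⟨X, hX, rfl⟩ := hx
      obtain ⟨c, rfl⟩ := IsLocalRing.residue_surjective c
      refine ⟨c • X, Submodule.smul_mem _ _ hX, ?_⟩
      rw [LinearMap.baseChange_smul]
      exact (algebraMap_smul 𝕜 c (X.baseChange 𝕜)).symm
  rw [eq_top_iff]
  refine Submodule.le_of_le_smul_of_le_jacobson_bot (I := IsLocalRing.maximalIdeal T)
    (Module.Finite.fg_top) (IsLocalRing.maximalIdeal_le_jacobson _) ?_
  intro Y _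
  obtain ⟨Y', hY', hYY'⟩ := key (Y.baseChange 𝕜) (h ▸ Submodule.mem_top)
  have h1 : (Y - Y').baseChange 𝕜 = 0 := by
    rw [LinearMap.baseChange_sub]
    exact sub_eq_zero.2 hYY'.symm
  have h2 := mem_smul_top_of_baseChange_eq_zero _ h1
  have h3 : Y = Y' + (Y - Y') := by abel
  rw [h3]
  exact Submodule.add_mem_sup hY' h2

end Local

section Adic

variable {T : Type} [CommRing T] [IsLocalRing T]

local notation "GQ" => (AlgebraicClosure ℚ ≃ₐ[ℚ] AlgebraicClosure ℚ)

/-- a residually absolutely irreducible adic representation spans `End_T V`. -/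
theorem span_eq_top (ρ : GaloisRepAdic T) (habs : ρ.residual.IsAbsolutelyIrreducible) :
    Submodule.span T (Set.range ρ.ρ) = ⊤ := by
  apply span_eq_top_of_residual
  have : Nontrivial ρ.residual.V :=
    Module.nontrivial_of_finrank_pos (R := IsLocalRing.ResidueField T)
      (by rw [ρ.residual.finrank_eq]; norm_num)
  exact span_eq_top_of_isIrr (K := AlgebraicClosure (IsLocalRing.ResidueField T)) ρ.residual.ρ
    (ρ.residual.baseChange (AlgebraicClosure (IsLocalRing.ResidueField T))).ρ (fun g => rfl) habs

/-- **TRACE-KILL**: if `tr ρ(τ g) = tr ρ(g)` for all `g` then `ρ(τ) = 1`. -/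
theorem eq_one_of_trace (ρ : GaloisRepAdic T) (habs : ρ.residual.IsAbsolutelyIrreducible) (τ : GQ)
    (h : ∀ g : GQ, LinearMap.trace T ρ.V (ρ.ρ (τ * g)) = LinearMap.trace T ρ.V (ρ.ρ g)) :
    ρ.ρ τ = 1 := by
  rw [← sub_eq_zero]
  refine eq_zero_of_trace_mul_of_span (span_eq_top ρ habs) _ ?_
  rintro _ ⟨g, rfl⟩
  rw [sub_mul, one_mul, ← map_mul, map_sub, h, sub_self]

/-- **TRACE-KILL**, adic form: it is enough to know the equality of traces modulo all powers of
the maximal ideal. -/
theorem eq_one_of_trace_sub_mem [IsHausdorff (IsLocalRing.maximalIdeal T) T]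
    (ρ : GaloisRepAdic T) (habs : ρ.residual.IsAbsolutelyIrreducible) (τ : GQ)
    (h : ∀ (n : ℕ) (g : GQ), LinearMap.trace T ρ.V (ρ.ρ (τ * g)) - LinearMap.trace T ρ.V (ρ.ρ g)
      ∈ IsLocalRing.maximalIdeal T ^ n) :
    ρ.ρ τ = 1 := by
  refine eq_one_of_trace ρ habs τ fun g => sub_eq_zero.1
    (IsHausdorff.haus' (I := IsLocalRing.maximalIdeal T) _ fun n => ?_)
  rw [SModEq.zero, smul_eq_mul, Ideal.mul_top]
  exact h n g

end Adic

end Fermat.Agent.S31.TraceKill
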