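import Fermat.Agent.S31.Sat
import Fermat.Agent.S31.Lucas
import Fermat.Agent.S31.TraceSpan
import Fermat.Agent.S31.CycM
import Fermat.Agent.ES.EGlue
import Fermat.Prelude.Def_CuspForm_HeckeGaloisRepDatum

/-!
# S31 : the Galois representation of a Hecke-Galois datum is unramified outside `S`

The inputs from the project ES (Kummer groups `KV (p ^ r) N`, Eichler-Shimura relation, triviality
of inertia, the embedding `Λ / p ^ r Λ → KV (p ^ r) N`) are bundled in the structure `Input`.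
-/

set_option autoImplicit false

namespace Fermat.Agent.S31

open CongruenceSubgroup CuspForm Fermat.Agent.S16 Fermat.Agent.S24 Fermat.Agent.ES Module

/-- The input from ES at the exponent `M`. -/
structure Input (N : ℕ) [NeZero N] (M : ℕ) {Rg : Type} [CommRing Rg] (X : Type) [AddCommGroup X]
    [Module Rg X] (gal : GQ →* Module.End Rg X) (hk : ℕ → Module.End Rg X)
    (iota : LamM N 1 →+ X) : Prop where
  tors : ∀ x : X, M • x = 0
  smooth : ∀ x : X, ∃ L : IntermediateField ℚ Kb, FiniteDimensional ℚ L ∧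
    ∀ σ : GQ, (∀ a ∈ L, σ a = a) → gal σ x = x
  inertia : ∀ ℓ : ℕ, ℓ.Prime → ¬ ℓ ∣ N * M → ∀ A : ValuationSubring Kb, A.LiesOverPrime ℓ →
    ∀ τ ∈ A.inertiaSubgroupIn ℚ, gal τ = 1
  es : ∀ ℓ : ℕ, ℓ.Prime → ¬ ℓ ∣ N * M → ∀ A : ValuationSubring Kb, A.LiesOverPrime ℓ →
    ∀ σ : GQ, A.IsFrobeniusAt σ ℓ →
      gal σ * gal σ - hk ℓ * gal σ + (ℓ : Module.End Rg X) = 0
  ker : ∀ f : LamM N 1, iota f = 0 → f.1 ∈ LamM N (M : ℤ)
  equiv : ∀ (ℓ : ℕ) (hℓ : ℓ.Prime) (hℓN : ¬ ℓ ∣ N) (f f' : LamM N 1),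
    f'.1 = heckeTLin 2 hℓ hℓN f.1 → hk ℓ (iota f) = iota f'

namespace Core

/-! ### traces modulo an ideal -/

section Trace

variable {T : Type*} [CommRing T] {V : Type*} [AddCommGroup V] [Module T V]
  [Module.Free T V] [Module.Finite T V]

theorem repr_mem {ι : Type*} (b : Basis ι T V) (I : Ideal T) {x : V}
    (hx : x ∈ I • (⊤ : Submodule T V)) (i : ι) : b.repr x i ∈ I := by
  refine Submodule.smul_induction_on hx ?_ ?_
  · intro r hr v _
    rw [map_smul, Finsupp.smul_apply, smul_eq_mul]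
    exact I.mul_mem_right _ hr
  · intro x y hx hy
    rw [map_add, Finsupp.add_apply]
    exact I.add_mem hx hy

theorem trace_mem (I : Ideal T) (f : End T V) (h : ∀ v, f v ∈ I • (⊤ : Submodule T V)) :
    LinearMap.trace T V f ∈ I := by
  classical
  let b := Module.Free.chooseBasis T V
  rw [LinearMap.trace_eq_matrix_trace T b, Matrix.trace]
  refine I.sum_mem fun i _ => ?_
  rw [Matrix.diag_apply, LinearMap.toMatrix_apply]
  exact repr_mem b I (h _) i

theorem map_mem_smul_top (I : Ideal T) (f : End T V) {x : V}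
    (hx : x ∈ I • (⊤ : Submodule T V)) : f x ∈ I • (⊤ : Submodule T V) := by
  refine Submodule.smul_induction_on hx ?_ ?_
  · intro r hr v _
    rw [map_smul]
    exact Submodule.smul_mem_smul hr Submodule.mem_top
  · intro x y hx hy
    rw [map_add]
    exact Submodule.add_mem _ hx hy

end Trace

/-- two elements of `GQ` agree on `E`. -/
def Agree (E : IntermediateField ℚ Kb) (g h : GQ) : Prop := ∀ a ∈ E, g a = h a

theorem Agree.fixes {E : IntermediateField ℚ Kb} {g h : GQ} (H : Agree E g h) :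
    ∀ a ∈ E, (h⁻¹ * g) a = a := by
  intro a ha
  rw [AlgEquiv.mul_apply, H a ha]
  exact h.symm_apply_apply a

theorem Agree.mono {E E' : IntermediateField ℚ Kb} (hE : E' ≤ E) {g h : GQ} (H : Agree E g h) :
    Agree E' g h := fun a ha => H a (hE ha)

theorem apply_mem {E : IntermediateField ℚ Kb} [hN : Normal ℚ E] (g : GQ) {a : Kb} (ha : a ∈ E) :
    g a ∈ E := by
  have h1 : Algebra.IsAlgebraic ℚ Kb := AlgebraicClosure.isAlgebraic ℚ
  have h2 : IsAlgClosure ℚ Kb := ⟨inferInstance, inferInstance⟩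
  have h3 : Normal ℚ Kb := IsAlgClosure.normal ℚ Kb
  have hN' : @Normal ℚ E _ _ E.algebra' := by
    convert hN
    exact Subsingleton.elim _ _
  have h := (IntermediateField.normal_iff_forall_map_le' (K := E)).1 hN' g
  exact h ⟨a, ha, rfl⟩

theorem Agree.inv {E : IntermediateField ℚ Kb} [Normal ℚ E] {g h : GQ} (H : Agree E g h) :
    Agree E g⁻¹ h⁻¹ := by
  intro a ha
  have hb : g⁻¹ a ∈ E := apply_mem g⁻¹ ha
  have h1 : h (g⁻¹ a) = a := by
    rw [← H _ hb]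
    exact g.apply_symm_apply a
  have h2 : h⁻¹ (h (g⁻¹ a)) = g⁻¹ a := h.symm_apply_apply _
  rw [← h2, h1]

/-- congruence of traces for elements agreeing on the level `n` field. -/
theorem trace_sub_mem {T : Type} [CommRing T] [IsLocalRing T] (ρ : GaloisRepAdic T) (n : ℕ)
    (L : IntermediateField ℚ Kb)
    (hL : ∀ σ : GQ, (∀ x ∈ L, σ x = x) →
      ∀ v : ρ.V, ρ.ρ σ v - v ∈ (IsLocalRing.maximalIdeal T ^ n) • (⊤ : Submodule T ρ.V))
    {g h : GQ} (H : Agree L g h) :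
    LinearMap.trace T ρ.V (ρ.ρ g) - LinearMap.trace T ρ.V (ρ.ρ h)
      ∈ IsLocalRing.maximalIdeal T ^ n := by
  rw [← map_sub]
  refine trace_mem _ _ fun v => ?_
  have e : ρ.ρ g = ρ.ρ h * ρ.ρ (h⁻¹ * g) := by rw [← map_mul, mul_inv_cancel_left]
  rw [LinearMap.sub_apply, e, Module.End.mul_apply, ← map_sub]
  exact map_mem_smul_top _ _ (hL _ H.fixes v)

/-! ### the Hecke algebra acting on the lattice -/

section Lattice

variable (N : ℕ) [NeZero N] (S : Set ℕ)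

/-- the action of the Hecke algebra on the lattice. -/
noncomputable def actL : heckeAlgebra N 2 S →+* Module.End ℤ (LamM N 1) where
  toFun t := Sat.restr N t.1 (hecke_mem_LamM 1 t.2)
  map_one' := by ext f; rfl
  map_mul' s t := by ext f; rfl
  map_zero' := by ext f; rfl
  map_add' s t := by ext f; rfl

theorem actL_apply (t : heckeAlgebra N 2 S) (f : LamM N 1) :
    ((actL N S t f : LamM N 1) : CuspForm (Gamma0 N) 2) = t.1 f.1 := rfl

end Lattice

section Main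

variable {N : ℕ} [NeZero N] {M : ℕ} {Rg : Type} [CommRing Rg] {X : Type} [AddCommGroup X]
  [Module Rg X] {gal : GQ →* Module.End Rg X} {hk : ℕ → Module.End Rg X}
  {iota : LamM N 1 →+ X}

/-- compatible pairs (operator on `X`, Hecke operator). -/
def compat (S : Set ℕ) (iota : LamM N 1 →+ X) :
    Subring (Module.End Rg X × heckeAlgebra N 2 S) where
  carrier := {z | ∀ f, z.1 (iota f) = iota (actL N S z.2 f)}
  mul_mem' := by
    intro a b ha hb f
    show a.1 (b.1 (iota f)) = iota (actL N S (a.2 * b.2) f)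
    rw [hb f, ha, map_mul]
    rfl
  one_mem' := by
    intro f
    show iota f = iota (actL N S 1 f)
    rw [map_one]
    rfl
  add_mem' := by
    intro a b ha hb f
    show a.1 (iota f) + b.1 (iota f) = iota (actL N S (a.2 + b.2) f)
    rw [ha f, hb f, map_add, LinearMap.add_apply, map_add]
  zero_mem' := by
    intro f
    show (0 : X) = iota (actL N S 0 f)
    rw [map_zero, LinearMap.zero_apply, map_zero]
  neg_mem' := by
    intro a ha f
    show -(a.1 (iota f)) = iota (actL N S (-a.2) f)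
    rw [ha f, map_neg, LinearMap.neg_apply, map_neg]

theorem lucas_iota (hin : Input N M X gal hk iota) {S : Set ℕ} {ℓ : ℕ} (hℓ : ℓ.Prime)
    (hℓN : ¬ ℓ ∣ N) (hℓS : ℓ ∉ S) (k : ℕ) (f : LamM N 1) :
    Lucas.lucasV (hk ℓ) (ℓ : Module.End Rg X) k (iota f)
      = iota (actL N S (Lucas.lucasV (heckeAlgebra.T hℓ hℓN hℓS) (ℓ : heckeAlgebra N 2 S) k) f) := by
  have hz : ((hk ℓ, heckeAlgebra.T hℓ hℓN hℓS) : Module.End Rg X × heckeAlgebra N 2 S)
      ∈ compat (Rg := Rg) S iota := fun f => hin.equiv ℓ hℓ hℓN f _ rfl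
  set z : compat (Rg := Rg) S iota := ⟨_, hz⟩ with hzdef
  have h := (Lucas.lucasV z (ℓ : compat (Rg := Rg) S iota) k).2 f
  have e1 := Lucas.map_lucasV ((RingHom.fst _ _).comp (compat (Rg := Rg) S iota).subtype) z
    (ℓ : compat (Rg := Rg) S iota) k
  have e2 := Lucas.map_lucasV ((RingHom.snd _ _).comp (compat (Rg := Rg) S iota).subtype) z
    (ℓ : compat (Rg := Rg) S iota) k
  rw [map_natCast] at e1 e2
  have e1' : (Lucas.lucasV z (ℓ : compat (Rg := Rg) S iota) k).1.1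
      = Lucas.lucasV (hk ℓ) (ℓ : Module.End Rg X) k := e1
  have e2' : (Lucas.lucasV z (ℓ : compat (Rg := Rg) S iota) k).1.2
      = Lucas.lucasV (heckeAlgebra.T hℓ hℓN hℓS) (ℓ : heckeAlgebra N 2 S) k := e2
  rw [e1', e2'] at h
  exact h

theorem gal_eq_of_agree {E : IntermediateField ℚ Kb} {x : X}
    (hx : ∀ σ : GQ, (∀ a ∈ E, σ a = a) → gal σ x = x) {g h : GQ} (H : Agree E g h) :
    gal g x = gal h x := by
  have e : gal g = gal h * gal (h⁻¹ * g) := by rw [← map_mul, mul_inv_cancel_left]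
  rw [e, Module.End.mul_apply, hx _ H.fixes]

/-- the Lucas relation for a Frobenius element, evaluated at a vector. -/
theorem lucas_apply (hin : Input N M X gal hk iota) {ℓ : ℕ} (hℓ : ℓ.Prime) (hℓNM : ¬ ℓ ∣ N * M)
    {A : ValuationSubring Kb} (hA : A.LiesOverPrime ℓ) {σ : GQ} (hσ : A.IsFrobeniusAt σ ℓ) (k : ℕ)
    (x : X) :
    Lucas.lucasV (hk ℓ) (ℓ : Module.End Rg X) k x
      = gal (σ ^ k) x + (ℓ ^ k) • gal (σ ^ k)⁻¹ x := by
  set s : (Module.End Rg X)ˣ := gal.toHomUnits σ with hs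
  have hsv : (s : Module.End Rg X) = gal σ := rfl
  have hsi : ((s⁻¹ : (Module.End Rg X)ˣ) : Module.End Rg X) = gal σ⁻¹ := by
    rw [hs, ← map_inv]; rfl
  have hes := hin.es ℓ hℓ hℓNM A hA σ hσ
  have h1 : (s : Module.End Rg X) + (ℓ : Module.End Rg X) * ((s⁻¹ : (Module.End Rg X)ˣ) :
      Module.End Rg X) = hk ℓ := by
    have h2 := congrArg (fun e => e * ((s⁻¹ : (Module.End Rg X)ˣ) : Module.End Rg X)) hes
    simp only [add_mul, sub_mul, zero_mul, mul_assoc] at h2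
    rw [← hsv, Units.mul_inv, mul_one, mul_one] at h2
    rw [← sub_eq_zero, ← h2]
    abel
  have h3 := Lucas.units_pow_add s (Nat.cast_commute ℓ _) h1 k
  rw [← h3, LinearMap.add_apply, Module.End.mul_apply, hsv, hsi, ← map_pow, ← map_pow, inv_pow,
    ← Nat.cast_pow, Module.End.natCast_apply]

theorem nsmul_eq_of_modEq (hin : Input N M X gal hk iota) {a b : ℕ} (h : a ≡ b [MOD M]) (x : X) :
    a • x = b • x := by
  have h1 : (M : ℤ) ∣ (b : ℤ) - a := (Nat.modEq_iff_dvd).1 h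
  obtain ⟨c, hc⟩ := h1
  have h2 : ((b : ℤ) - a) • x = 0 := by
    rw [hc, mul_comm, mul_smul, natCast_zsmul, hin.tors, smul_zero]
  rw [sub_smul, natCast_zsmul, natCast_zsmul, sub_eq_zero] at h2
  exact h2.symm

/-- there is a finite level fixing the image of the whole lattice. -/
theorem exists_level (hin : Input N M X gal hk iota) :
    ∃ L : IntermediateField ℚ Kb, FiniteDimensional ℚ L ∧
      ∀ f : LamM N 1, ∀ σ : GQ, (∀ a ∈ L, σ a = a) → gal σ (iota f) = iota f := by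
  classical
  have hfin := Lat.finite_LamM_one N
  obtain ⟨G, hG⟩ := hfin.fg_top
  have key : ∀ G' : Finset (LamM N 1), ∃ L : IntermediateField ℚ Kb, FiniteDimensional ℚ L ∧
      ∀ f ∈ G', ∀ σ : GQ, (∀ a ∈ L, σ a = a) → gal σ (iota f) = iota f := by
    intro G'
    induction G' using Finset.induction_on with
    | empty => exact ⟨⊥, inferInstance, fun f hf => absurd hf (Finset.notMem_empty f)⟩
    | insert f₀ G' _ ih =>
      obtain ⟨L, hL, h⟩ := ih
      obtain ⟨L₀, hL₀, h₀⟩ := hin.smooth (iota f₀)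
      refine ⟨L ⊔ L₀, IntermediateField.finiteDimensional_sup L L₀, fun f hf σ hσ => ?_⟩
      rcases Finset.mem_insert.1 hf with rfl | hf
      · exact h₀ σ fun a ha => hσ a ((le_sup_right : L₀ ≤ L ⊔ L₀) ha)
      · exact h f hf σ fun a ha => hσ a ((le_sup_left : L ≤ L ⊔ L₀) ha)
  obtain ⟨L, hL, h⟩ := key G
  refine ⟨L, hL, fun f σ hσ => ?_⟩
  have hf : f ∈ Submodule.span ℤ (G : Set (LamM N 1)) := hG ▸ Submodule.mem_top
  induction hf using Submodule.span_induction with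
  | mem f hf => exact h f hf σ hσ
  | zero => simp
  | add a b _ _ ha hb => rw [map_add, map_add, ha, hb]
  | smul r a _ ha => rw [map_zsmul, map_zsmul, ha]

end Main

end Core

open Core

/-- the ES input is available at all the exponents `p ^ r`. -/
def HasInput (N : ℕ) [NeZero N] (p : ℕ) : Prop :=
  ∀ r : ℕ, ∃ (Rg : Type) (_ : CommRing Rg) (X : Type) (_ : AddCommGroup X) (_ : Module Rg X)
    (gal : GQ →* Module.End Rg X) (hk : ℕ → Module.End Rg X) (iota : LamM N 1 →+ X),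
    Input N (p ^ r) X gal hk iota

section Final

variable {p : ℕ} {N : ℕ} [NeZero N] {S : Finset ℕ}
  {𝒪 : Type} [CommRing 𝒪] [IsDomain 𝒪] [IsDiscreteValuationRing 𝒪]
  [IsAdicComplete (IsLocalRing.maximalIdeal 𝒪) 𝒪]
  {θ : CuspForm.heckeAlgebra N 2 (↑S : Set ℕ) →+* IsLocalRing.ResidueField 𝒪}
  {T : Type} [CommRing T] [IsLocalRing T] [IsNoetherianRing T]
  [IsAdicComplete (IsLocalRing.maximalIdeal T) T] [Algebra 𝒪 T] [IsLocalHom (algebraMap 𝒪 T)]
  [Module.Finite 𝒪 T] [Module.Free 𝒪 T]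

/-- **S31**, with the ES input as a hypothesis. -/
theorem isUnramifiedAt_of_input (hp : p.Prime)
    (hp𝒪 : (p : 𝒪) ∈ IsLocalRing.maximalIdeal 𝒪) (hpS : p ∈ S)
    (hNS : ∀ q : ℕ, q.Prime → q ∣ N → q ∈ S)
    (H : CuspForm.HeckeGaloisRepDatum N (↑S : Set ℕ) 𝒪 θ T) (hin : HasInput N p)
    (q : ℕ) (hq : q.Prime) (hqS : q ∉ S) :
    H.ρ.IsUnramifiedAt q := by
  intro P hP τ hτ
  refine TraceKill.eq_one_of_trace_sub_mem H.ρ H.residual_absIrr τ fun n g => ?_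
  obtain ⟨c, d, hd, hsat⟩ := sat N (↑S : Set ℕ) p hp
  obtain ⟨Rg, _, X, _, _, gal, hk, iota, hI⟩ := hin (n + c)
  set M : ℕ := p ^ (n + c) with hM
  haveI : NeZero M := ⟨pow_ne_zero _ hp.ne_zero⟩
  have hnd : ∀ ℓ : ℕ, ℓ.Prime → ℓ ∉ S → ¬ ℓ ∣ N ∧ ¬ ℓ ∣ M ∧ ¬ ℓ ∣ N * M := by
    intro ℓ hℓ hℓS
    have h1 : ¬ ℓ ∣ N := fun h => hℓS (hNS ℓ hℓ h)
    have h2 : ¬ ℓ ∣ M := fun h => by
      have := (Nat.prime_dvd_prime_iff_eq hℓ hp).1 (hℓ.dvd_of_dvd_pow h)
      exact hℓS (this ▸ hpS)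
    exact ⟨h1, h2, fun h => (hℓ.dvd_mul.1 h).elim h1 h2⟩
  -- the field `E`
  obtain ⟨L1, hL1, h1⟩ := exists_level hI
  obtain ⟨L2, hL2, h2⟩ := H.ρ.isAdicContinuous n
  obtain ⟨ζ, hζ⟩ := ECyc.exists_primitiveRoot M
  have hL3 : FiniteDimensional ℚ (IntermediateField.adjoin ℚ {ζ}) :=
    IntermediateField.adjoin.finiteDimensional
      (hζ.isIntegral (Nat.pos_of_ne_zero (NeZero.ne M))).tower_top
  obtain ⟨E0, hE0, -, h10, h20⟩ := EGlue.exists_galois L1 L2 hL1 hL2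
  obtain ⟨E, hE, hG, h0E, h3E⟩ := EGlue.exists_galois E0 _ hE0 hL3
  have hζE : ζ ∈ E := h3E (IntermediateField.mem_adjoin_simple_self ℚ ζ)
  have hNor : Normal ℚ E := hG.to_normal
  -- Chebotarev, twice
  obtain ⟨ℓ, A, σ, -, k, hℓ, hℓS, hA, hσ, -, hg⟩ := Cheb.weak_chebotarev E S g
  obtain ⟨ℓ', A', σ', -, k', hℓ', hℓS', hA', hσ', -, hg'⟩ := Cheb.weak_chebotarev E S (τ * g)
  obtain ⟨hℓN, hℓM, hℓNM⟩ := hnd ℓ hℓ hℓS
  obtain ⟨hℓN', hℓM', hℓNM'⟩ := hnd ℓ' hℓ' hℓS'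
  obtain ⟨-, hqM, hqNM⟩ := hnd q hq hqS
  have hag : Agree E g (σ ^ k) := hg
  have hag' : Agree E (τ * g) (σ' ^ k') := hg'
  -- the cyclotomic congruence
  have hmod : ℓ ^ k ≡ ℓ' ^ k' [MOD M] := by
    have e1 : g ζ = ζ ^ (ℓ ^ k) := by
      rw [hg ζ hζE, CycM.pow_apply_zeta σ (CycM.frobenius_zeta hζ hℓ hℓM hA σ hσ) k]
    have e2 : (τ * g) ζ = ζ ^ (ℓ' ^ k') := by
      rw [hg' ζ hζE, CycM.pow_apply_zeta σ' (CycM.frobenius_zeta hζ hℓ' hℓM' hA' σ' hσ') k']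
    have e3 : (τ * g) ζ = ζ ^ (ℓ ^ k) := by
      rw [AlgEquiv.mul_apply, e1, map_pow, CycM.inertia_zeta hζ hq hqM hP τ hτ]
    have hfin : IsOfFinOrder ζ :=
      isOfFinOrder_iff_pow_eq_one.mpr ⟨M, Nat.pos_of_ne_zero (NeZero.ne M), hζ.pow_eq_one⟩
    have := hfin.pow_eq_pow_iff_modEq.mp (e3.symm.trans e2)
    rwa [← hζ.eq_orderOf] at this
  have hℓS2 : ℓ ∉ (↑S : Set ℕ) := fun h => hℓS (Finset.mem_coe.1 h)
  have hℓS2' : ℓ' ∉ (↑S : Set ℕ) := fun h => hℓS' (Finset.mem_coe.1 h)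
  set V : heckeAlgebra N 2 (↑S : Set ℕ) :=
    Lucas.lucasV (heckeAlgebra.T hℓ hℓN hℓS2) (ℓ : heckeAlgebra N 2 (↑S : Set ℕ)) k with hV
  set V' : heckeAlgebra N 2 (↑S : Set ℕ) :=
    Lucas.lucasV (heckeAlgebra.T hℓ' hℓN' hℓS2') (ℓ' : heckeAlgebra N 2 (↑S : Set ℕ)) k' with hV'
  have hτ1 : gal τ = 1 := hI.inertia q hq hqNM P hP τ hτ
  have hτ2 : gal τ⁻¹ = 1 := hI.inertia q hq hqNM P hP τ⁻¹ (inv_mem hτ)
  -- `V - V'` maps the lattice into `M` times the lattice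
  have hDlt : ∀ f ∈ LamM N 1, ((V - V' : heckeAlgebra N 2 (↑S : Set ℕ)) :
      Module.End ℂ (CuspForm (Gamma0 N) 2)) f ∈ LamM N ((p ^ (n + c) : ℕ) : ℤ) := by
    intro f hf
    refine hI.ker (actL N (↑S : Set ℕ) (V - V') ⟨f, hf⟩) ?_
    set x : X := iota ⟨f, hf⟩ with hx
    have hfix : ∀ s : GQ, (∀ a ∈ E, s a = a) → gal s x = x := fun s hs =>
      h1 _ s fun a ha => hs a (h0E (h10 ha))
    rw [map_sub, LinearMap.sub_apply, map_sub, hV, hV', ← lucas_iota hI hℓ hℓN hℓS2 k,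
      ← lucas_iota hI hℓ' hℓN' hℓS2' k', ← hx, lucas_apply hI hℓ hℓNM hA hσ k,
      lucas_apply hI hℓ' hℓNM' hA' hσ' k', ← gal_eq_of_agree hfix hag,
      ← gal_eq_of_agree hfix hag.inv, ← gal_eq_of_agree hfix hag',
      ← gal_eq_of_agree hfix hag'.inv, mul_inv_rev, map_mul, map_mul, hτ1, hτ2, one_mul, mul_one,
      nsmul_eq_of_modEq hI hmod, sub_self]
  obtain ⟨t', ht'⟩ := hsat n (V - V') hDlt
  -- consequences in `T`
  have hpT : (p : T) ∈ IsLocalRing.maximalIdeal T := by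
    rw [IsLocalRing.mem_maximalIdeal, mem_nonunits_iff] at hp𝒪 ⊢
    intro hu
    apply hp𝒪
    have : algebraMap 𝒪 T (p : 𝒪) = (p : T) := map_natCast _ _
    rw [← this] at hu
    exact (isUnit_map_iff (algebraMap 𝒪 T) _).1 hu
  have hdT : IsUnit (d : T) := by
    by_contra hcon
    have hdm : (d : T) ∈ IsLocalRing.maximalIdeal T := (IsLocalRing.mem_maximalIdeal _).2 hcon
    have hcop : Nat.Coprime p d := (Nat.Prime.coprime_iff_not_dvd hp).2 hd
    have h1m : ((Nat.gcd p d : ℤ) : T) ∈ IsLocalRing.maximalIdeal T := by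
      rw [Nat.gcd_eq_gcd_ab]
      push_cast
      exact Ideal.add_mem _ (Ideal.mul_mem_right _ _ hpT) (Ideal.mul_mem_right _ _ hdm)
    rw [hcop] at h1m
    simp only [Nat.cast_one, Int.cast_one] at h1m
    exact (Ideal.ne_top_iff_one _).1 (IsLocalRing.maximalIdeal.isMaximal T).ne_top h1m
  have hπ : H.π (V - V') ∈ IsLocalRing.maximalIdeal T ^ n := by
    have e := congrArg H.π ht'
    rw [map_mul, map_mul, map_pow, map_natCast, map_natCast] at e
    obtain ⟨u, hu⟩ := hdT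
    have e2 : H.π (V - V') = (p : T) ^ n * (↑u⁻¹ * H.π t') := by
      rw [← hu] at e
      calc H.π (V - V') = ↑u⁻¹ * (↑u * H.π (V - V')) := by rw [Units.inv_mul_cancel_left]
        _ = (p : T) ^ n * (↑u⁻¹ * H.π t') := by rw [e]; ring
    rw [e2]
    exact Ideal.mul_mem_right _ _ (Ideal.pow_mem_pow hpT n)
  have tσ : LinearMap.trace T H.ρ.V (H.ρ.ρ (σ ^ k)) = H.π V := by
    rw [map_pow, Lucas.trace_pow H.ρ.finrank_eq (H.charpoly_frob ℓ hℓ hℓN hℓS2 A hA σ hσ) k, hV,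
      Lucas.map_lucasV, map_natCast]
  have tσ' : LinearMap.trace T H.ρ.V (H.ρ.ρ (σ' ^ k')) = H.π V' := by
    rw [map_pow, Lucas.trace_pow H.ρ.finrank_eq (H.charpoly_frob ℓ' hℓ' hℓN' hℓS2' A' hA' σ' hσ') k',
      hV', Lucas.map_lucasV, map_natCast]
  have c1 := trace_sub_mem H.ρ n L2 h2 (hag.mono (h20.trans h0E))
  have c2 := trace_sub_mem H.ρ n L2 h2 (hag'.mono (h20.trans h0E))
  rw [tσ] at c1
  rw [tσ'] at c2
  have : LinearMap.trace T H.ρ.V (H.ρ.ρ (τ * g)) - LinearMap.trace T H.ρ.V (H.ρ.ρ g)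
      = (LinearMap.trace T H.ρ.V (H.ρ.ρ (τ * g)) - H.π V') - H.π (V - V')
        - (LinearMap.trace T H.ρ.V (H.ρ.ρ g) - H.π V) := by
    rw [map_sub]; ring
  rw [this]
  exact Ideal.sub_mem _ (Ideal.sub_mem _ c2 hπ) c1

end Final

end Fermat.Agent.S31
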