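import Fermat.Agent.ES.ECyc

/-!
# S31 : the mod `n` cyclotomic character `GQ →* (ZMod n)ˣ` for an arbitrary modulus `n ≠ 0`
-/

set_option autoImplicit false

namespace Fermat.Agent.S31

open Polynomial Fermat.Agent.S24 Fermat.Agent.ES Fermat.Agent.ES.ECyc

namespace CycN

variable {A : ValuationSubring Kb}

/-- The key local computation: if an element `s` of the decomposition group acts on the residue
field as `x ↦ x ^ m`, then its mod `n` cyclotomic character is `m` (`ℓ ∤ n`). -/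
theorem autToPow_eq {n : ℕ} [NeZero n] {ζ : Kb} (hζ : IsPrimitiveRoot ζ n) {ℓ : ℕ}
    (hℓ : ℓ.Prime) (hℓn : ¬ ℓ ∣ n) (hA : A.LiesOverPrime ℓ) (s : A.decompositionSubgroup ℚ) (m : ℕ)
    (hs : ∀ z : IsLocalRing.ResidueField A, s • z = z ^ m) :
    ((hζ.autToPow ℚ (s : GQ) : (ZMod n)ˣ) : ZMod n) = (m : ZMod n) := by
  have hn : n ≠ 0 := NeZero.ne n
  have hζA : ζ ∈ A := mem_of_pow_eq_one hn hζ.pow_eq_one
  set ζA : A := ⟨ζ, hζA⟩ with hζAdef
  have h1 : IsPrimitiveRoot ζA n :=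
    IsPrimitiveRoot.of_map_of_injective (f := A.subtype) hζ Subtype.val_injective
  have := charP_residue hℓ hA
  have hpne : ((n : ℕ) : IsLocalRing.ResidueField A) ≠ 0 := by
    intro h0
    exact hℓn ((CharP.cast_eq_zero_iff (IsLocalRing.ResidueField A) ℓ n).mp h0)
  have h2 : IsPrimitiveRoot (IsLocalRing.residue A ζA) n :=
    isPrimitiveRoot_map (IsLocalRing.residue A) h1 hpne
  set v : ℕ := ((hζ.autToPow ℚ (s : GQ) : (ZMod n)ˣ) : ZMod n).val with hv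
  have h3 : ζ ^ v = (s : GQ) ζ := hζ.autToPow_spec ℚ (s : GQ)
  have h4 : s • ζA = ζA ^ v := Subtype.ext h3.symm
  have h5 := hs (IsLocalRing.residue A ζA)
  rw [← IsLocalRing.ResidueField.residue_smul, h4, map_pow] at h5
  have hfin : IsOfFinOrder (IsLocalRing.residue A ζA) :=
    isOfFinOrder_iff_pow_eq_one.mpr ⟨n, Nat.pos_of_ne_zero hn, h2.pow_eq_one⟩
  have h6 : v ≡ m [MOD n] := by
    have := hfin.pow_eq_pow_iff_modEq.mp h5
    rwa [← h2.eq_orderOf] at this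
  have h7 : ((v : ℕ) : ZMod n) = (m : ZMod n) := (ZMod.natCast_eq_natCast_iff _ _ _).mpr h6
  rw [← h7, hv, ZMod.natCast_zmod_val]

end CycN

/-- `χ` is the mod `n` cyclotomic character. -/
def IsCycN (n : ℕ) (χ : GQ →* (ZMod n)ˣ) : Prop :=
  GaloisFactorsThroughFiniteLevel χ ∧
    ∀ ℓ : ℕ, ℓ.Prime → ¬ ℓ ∣ n → ∀ A : ValuationSubring Kb, A.LiesOverPrime ℓ →
      (∀ τ ∈ A.inertiaSubgroupIn ℚ, χ τ = 1) ∧
      (∀ σ : GQ, A.IsFrobeniusAt σ ℓ → ((χ σ : (ZMod n)ˣ) : ZMod n) = (ℓ : ZMod n))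

/-- Existence of the mod `n` cyclotomic character. -/
theorem exists_isCycN (n : ℕ) [NeZero n] : ∃ χ : GQ →* (ZMod n)ˣ, IsCycN n χ := by
  obtain ⟨ζ, hζ⟩ := exists_primitiveRoot n
  have hn : 0 < n := Nat.pos_of_ne_zero (NeZero.ne n)
  refine ⟨hζ.autToPow ℚ, ⟨IntermediateField.adjoin ℚ {ζ}, ?_, fun σ hσ => ?_⟩,
    fun ℓ hℓ hℓn A hA => ⟨?_, ?_⟩⟩
  · exact IntermediateField.adjoin.finiteDimensional (hζ.isIntegral hn).tower_top
  · have h1 : σ ζ = ζ := hσ ζ (IntermediateField.mem_adjoin_simple_self ℚ ζ)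
    have h2 : ζ ^ ((hζ.autToPow ℚ σ : (ZMod n)ˣ) : ZMod n).val = σ ζ := hζ.autToPow_spec ℚ σ
    rw [h1] at h2
    have h3 : ((hζ.autToPow ℚ σ : (ZMod n)ˣ) : ZMod n).val ≡ 1 [MOD n] := by
      have hfin : IsOfFinOrder ζ := isOfFinOrder_iff_pow_eq_one.mpr ⟨n, hn, hζ.pow_eq_one⟩
      have := hfin.pow_eq_pow_iff_modEq.mp (h2.trans (pow_one ζ).symm)
      rwa [← hζ.eq_orderOf] at this
    ext
    rw [← ZMod.natCast_zmod_val ((hζ.autToPow ℚ σ : (ZMod n)ˣ) : ZMod n),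
      (ZMod.natCast_eq_natCast_iff _ _ _).mpr h3]
    simp
  · rintro τ ⟨τ', hτ', rfl⟩
    have h1 : ∀ z : IsLocalRing.ResidueField A, τ' • z = z ^ 1 := fun z => by
      have := DFunLike.congr_fun (show MulSemiringAction.toRingAut (A.decompositionSubgroup ℚ)
        (IsLocalRing.ResidueField A) τ' = 1 from hτ') z
      rw [pow_one]
      exact this
    have h2 := CycN.autToPow_eq hζ hℓ hℓn hA τ' 1 h1
    ext
    show ((hζ.autToPow ℚ (τ' : GQ) : (ZMod n)ˣ) : ZMod n) = _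
    rw [h2]
    simp
  · intro σ hσ
    exact CycN.autToPow_eq hζ hℓ hℓn hA ⟨σ, hσ.mem_decompositionSubgroup⟩ ℓ hσ.smul_residue_eq

end Fermat.Agent.S31
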