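import Fermat.Agent.ES.Lat
import Fermat.Agent.S22

/-!
# S31, package [d] SAT

The Hecke algebra `TT = heckeAlgebra N 2 S` is a finitely generated `ℤ`-module acting faithfully on
the lattice `L = LamM N 1`.  Hence there are `c, d` with `p ∤ d` such that every `t ∈ TT` with
`t L ⊆ p ^ (m + c) L` satisfies `d t ∈ p ^ m TT`.
-/

set_option autoImplicit false

namespace Fermat.Agent.S31

open CongruenceSubgroup CuspForm Fermat.Agent.S16 Fermat.Agent.ES

namespace Sat

/-- Abstract saturation lemma for finitely generated abelian groups. -/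
theorem abstract_sat {M : Type*} [AddCommGroup M] [Module.Finite ℤ M] (T : Submodule ℤ M)
    (p : ℕ) (hp : p.Prime) :
    ∃ c d : ℕ, ¬ p ∣ d ∧ ∀ (k : ℕ) (x : M), k ≠ 0 → k • x ∈ T → (p ^ c * d) • x ∈ T := by
  classical
  -- the saturation of `T`
  let Ts : Submodule ℤ M :=
    { carrier := {x | ∃ k : ℕ, k ≠ 0 ∧ k • x ∈ T}
      zero_mem' := ⟨1, one_ne_zero, by simp⟩
      add_mem' := by
        rintro a b ⟨k, hk, hka⟩ ⟨l, hl, hlb⟩
        refine ⟨k * l, mul_ne_zero hk hl, ?_⟩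
        rw [smul_add]
        refine T.add_mem ?_ ?_
        · rw [mul_comm, mul_smul]
          exact T.smul_of_tower_mem l hka
        · rw [mul_smul]
          exact T.smul_of_tower_mem k hlb
      smul_mem' := by
        rintro r a ⟨k, hk, hka⟩
        refine ⟨k, hk, ?_⟩
        rw [smul_comm]
        exact T.smul_mem r hka }
  have hfg : Ts.FG := IsNoetherian.noetherian Ts
  obtain ⟨G, hG⟩ := hfg
  have hGk : ∀ g ∈ G, ∃ k : ℕ, k ≠ 0 ∧ k • g ∈ T := fun g hg => by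
    have : g ∈ Ts := hG ▸ Submodule.subset_span hg
    exact this
  choose! κ hκ0 hκ using hGk
  set e : ℕ := ∏ g ∈ G, κ g with he
  have he0 : e ≠ 0 := Finset.prod_ne_zero_iff.2 hκ0
  have hkill : ∀ x ∈ Ts, e • x ∈ T := by
    intro x hx
    rw [← hG] at hx
    induction hx using Submodule.span_induction with
    | mem g hg =>
      obtain ⟨r, hr⟩ := Finset.dvd_prod_of_mem κ hg
      rw [he, hr, mul_comm, mul_smul]
      exact T.smul_of_tower_mem r (hκ g hg)
    | zero => simp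
    | add a b _ _ ha hb => rw [smul_add]; exact T.add_mem ha hb
    | smul r a _ ha => rw [smul_comm]; exact T.smul_mem r ha
  obtain ⟨c, d, hd, hcd⟩ := Nat.exists_eq_pow_mul_and_not_dvd he0 p hp.ne_one
  refine ⟨c, d, hd, fun k x hk hx => ?_⟩
  rw [← hcd]
  exact hkill x ⟨k, hk, hx⟩

variable (N : ℕ) [NeZero N]

/-- division by `M` maps `LamM N M` to `LamM N 1`. -/
theorem inv_smul_mem {M : ℕ} (hM : M ≠ 0) {f : CuspForm (Gamma0 N) 2} (hf : f ∈ LamM N (M : ℤ)) :
    ((M : ℂ)⁻¹) • f ∈ LamM N 1 := by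
  intro γ
  obtain ⟨m, hm⟩ := hf γ
  have hMr : (M : ℝ) ≠ 0 := by exact_mod_cast hM
  refine ⟨m, ?_⟩
  rw [map_smul, AddMonoidHom.smul_apply, smul_eq_mul,
    show ((M : ℂ)⁻¹) = (((M : ℝ)⁻¹ : ℝ) : ℂ) by push_cast; rfl, Complex.re_ofReal_mul, hm]
  push_cast
  field_simp

/-- an endomorphism stabilising the lattice, restricted to the lattice. -/
noncomputable def restr (t : Module.End ℂ (CuspForm (Gamma0 N) 2))
    (ht : ∀ f ∈ LamM N 1, t f ∈ LamM N 1) : Module.End ℤ (LamM N 1) :=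
  (AddMonoidHom.mk' (fun f : LamM N 1 => (⟨t f.1, ht f.1 f.2⟩ : LamM N 1)) (by
    intro f g
    apply Subtype.ext
    show t (f.1 + g.1) = t f.1 + t g.1
    rw [map_add])).toIntLinearMap

theorem restr_apply (t : Module.End ℂ (CuspForm (Gamma0 N) 2))
    (ht : ∀ f ∈ LamM N 1, t f ∈ LamM N 1) (f : LamM N 1) :
    ((restr N t ht f : LamM N 1) : CuspForm (Gamma0 N) 2) = t f.1 := rfl

/-- an endomorphism killing the lattice is zero. -/
theorem eq_zero_of_forall (t : Module.End ℂ (CuspForm (Gamma0 N) 2))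
    (ht : ∀ f ∈ LamM N 1, t f = 0) : t = 0 := by
  ext1 g
  obtain ⟨ι, _, e, f, hf, rfl⟩ := Lat.exists_real_comb N g
  rw [map_sum]
  simp only [map_smul, LinearMap.zero_apply]
  exact Finset.sum_eq_zero fun i _ => by rw [ht _ (hf i), smul_zero]

end Sat

open Fermat.Agent.S31.Sat

/-- **S31 [d] SAT.**  There are `c, d` with `p ∤ d` such that: `t ∈ TT`, `t L ⊆ p ^ (m + c) L`
implies `d t ∈ p ^ m TT`. -/
theorem sat (N : ℕ) [NeZero N] (S : Set ℕ) (p : ℕ) (hp : p.Prime) :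
    ∃ c d : ℕ, ¬ p ∣ d ∧ ∀ (m : ℕ) (t : heckeAlgebra N 2 S),
      (∀ f ∈ LamM N 1, (t : Module.End ℂ (CuspForm (Gamma0 N) 2)) f
        ∈ LamM N ((p ^ (m + c) : ℕ) : ℤ)) →
      ∃ t' : heckeAlgebra N 2 S,
        (d : heckeAlgebra N 2 S) * t = (p : heckeAlgebra N 2 S) ^ m * t' := by
  classical
  have := Lat.finite_LamM_one N
  have : IsAddTorsionFree (CuspForm (Gamma0 N) 2) := by
    have : Module ℚ (CuspForm (Gamma0 N) 2) := Module.compHom _ (algebraMap ℚ ℂ)
    exact IsAddTorsionFree.of_module_rat _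
  have : Module.Free ℤ (LamM N 1) := Module.free_of_finite_type_torsion_free'
  have : Module.Finite ℤ (Module.End ℤ (LamM N 1)) := Module.Finite.linearMap _ _ _ _
  have hst : ∀ t : heckeAlgebra N 2 S, ∀ f ∈ LamM N 1,
      (t : Module.End ℂ (CuspForm (Gamma0 N) 2)) f ∈ LamM N 1 :=
    fun t => hecke_mem_LamM 1 t.2
  -- the image of the Hecke algebra in `End_ℤ L`
  let r : heckeAlgebra N 2 S →ₗ[ℤ] Module.End ℤ (LamM N 1) :=
    (AddMonoidHom.mk' (fun t => restr N t.1 (hst t)) (by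
      intro s t
      ext f
      rfl)).toIntLinearMap
  have hr : ∀ t f, ((r t f : LamM N 1) : CuspForm (Gamma0 N) 2)
      = (t : Module.End ℂ (CuspForm (Gamma0 N) 2)) f.1 := fun _ _ => rfl
  have hrinj : Function.Injective r := by
    intro s t hst'
    apply Subtype.ext
    rw [← sub_eq_zero]
    apply eq_zero_of_forall
    intro f hf
    have := congrArg (fun φ : Module.End ℤ (LamM N 1) =>
      ((φ ⟨f, hf⟩ : LamM N 1) : CuspForm (Gamma0 N) 2)) hst'
    simp only [hr] at this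
    rw [LinearMap.sub_apply, this, sub_self]
  obtain ⟨c, d, hd, H⟩ := abstract_sat (LinearMap.range r) p hp
  refine ⟨c, d, hd, fun m t ht => ?_⟩
  have hk0 : p ^ (m + c) ≠ 0 := pow_ne_zero _ hp.ne_zero
  have hkc : ((p ^ (m + c) : ℕ) : ℂ) ≠ 0 := by exact_mod_cast hk0
  -- `x = t / p ^ (m + c)` on the lattice
  let x : Module.End ℤ (LamM N 1) :=
    restr N ((((p ^ (m + c) : ℕ) : ℂ)⁻¹) • (t : Module.End ℂ (CuspForm (Gamma0 N) 2)))
      (fun f hf => by
        rw [LinearMap.smul_apply]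
        exact inv_smul_mem N hk0 (ht f hf))
  have hx : (p ^ (m + c)) • x = r t := by
    refine LinearMap.ext fun f => Subtype.ext ?_
    rw [LinearMap.smul_apply, hr]
    show (p ^ (m + c)) • ((((p ^ (m + c) : ℕ) : ℂ)⁻¹)
      • (t : Module.End ℂ (CuspForm (Gamma0 N) 2))) f.1 = _
    rw [LinearMap.smul_apply, ← Nat.cast_smul_eq_nsmul ℂ, smul_smul, mul_inv_cancel₀ hkc, one_smul]
  obtain ⟨t', ht'⟩ := H (p ^ (m + c)) x hk0 (hx ▸ ⟨t, rfl⟩)
  refine ⟨t', hrinj ?_⟩
  have e1 : (d : heckeAlgebra N 2 S) * t = d • t := by rw [nsmul_eq_mul]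
  have e2 : (p : heckeAlgebra N 2 S) ^ m * t' = (p ^ m) • t' := by
    rw [nsmul_eq_mul]; push_cast; rfl
  rw [e1, e2, map_nsmul, map_nsmul, ht', ← hx, smul_smul, smul_smul]
  congr 1
  ring

end Fermat.Agent.S31
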