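import Fermat.Agent.S31.Lucas
import Fermat.Prelude.Def_CuspForm_HeckeGaloisRepDatum

/-!
# S31 : the trace of `ρ g` modulo `m_T ^ n` in terms of Hecke operators

If `g` coincides with `s ^ k` on a suitable finite level (depending only on `n`), `s` a Frobenius
element at `ℓ ∉ S`, then `tr ρ(g) ≡ π (V_k(T_ℓ, ℓ))` modulo `m_T ^ n`.
-/

set_option autoImplicit false

namespace Fermat.Agent.S31

open Module Polynomial Fermat.Agent.S31.Lucas

local notation "Qbar" => AlgebraicClosure ℚ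
local notation "GQ" => (AlgebraicClosure ℚ ≃ₐ[ℚ] AlgebraicClosure ℚ)

namespace TraceCong

variable {T : Type*} [CommRing T] {V : Type*} [AddCommGroup V] [Module T V]

theorem apply_mem_of_mem_smul_top (I : Ideal T) (φ : V →ₗ[T] T) {v : V}
    (hv : v ∈ I • (⊤ : Submodule T V)) : φ v ∈ I := by
  refine Submodule.smul_induction_on (p := fun w => φ w ∈ I) hv ?_ ?_
  · intro a ha w _
    rw [map_smul, smul_eq_mul]
    exact I.mul_mem_right _ ha
  · intro x y hx hy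
    rw [map_add]
    exact I.add_mem hx hy

theorem trace_mul_mem [Module.Free T V] [Module.Finite T V] (I : Ideal T) (X D : End T V)
    (hD : ∀ v, D v ∈ I • (⊤ : Submodule T V)) : LinearMap.trace T V (X * D) ∈ I := by
  classical
  let b := Module.Free.chooseBasis T V
  rw [LinearMap.trace_eq_matrix_trace T b, Matrix.trace]
  refine I.sum_mem fun i _ => ?_
  rw [Matrix.diag_apply, LinearMap.toMatrix_apply]
  exact apply_mem_of_mem_smul_top I ((b.coord i).comp X) (hD (b i))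

end TraceCong

open TraceCong

variable {N : ℕ} [NeZero N] {S : Set ℕ}
  {𝒪 : Type} [CommRing 𝒪] [IsDomain 𝒪] [IsDiscreteValuationRing 𝒪]
  [IsAdicComplete (IsLocalRing.maximalIdeal 𝒪) 𝒪]
  {θ : CuspForm.heckeAlgebra N 2 S →+* IsLocalRing.ResidueField 𝒪}
  {T : Type} [CommRing T] [IsLocalRing T] [IsNoetherianRing T]
  [IsAdicComplete (IsLocalRing.maximalIdeal T) T] [Algebra 𝒪 T] [IsLocalHom (algebraMap 𝒪 T)]
  [Module.Finite 𝒪 T] [Module.Free 𝒪 T]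

/-- `tr ρ(g) ≡ π (V_k(T_ℓ, ℓ))` modulo `m_T ^ n` if `g = s ^ k` on a suitable finite level. -/
theorem trace_cong (H : CuspForm.HeckeGaloisRepDatum N S 𝒪 θ T) (n : ℕ) :
    ∃ L : IntermediateField ℚ Qbar, FiniteDimensional ℚ L ∧
      ∀ (g s : GQ) (k : ℕ), (∀ x ∈ L, g x = (s ^ k) x) →
        ∀ (ℓ : ℕ) (hℓ : ℓ.Prime) (hℓN : ¬ ℓ ∣ N) (hℓS : ℓ ∉ S) (A : ValuationSubring Qbar),
          A.LiesOverPrime ℓ → A.IsFrobeniusAt s ℓ →
          LinearMap.trace T H.ρ.V (H.ρ.ρ g) -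
            H.π (lucasV (CuspForm.heckeAlgebra.T hℓ hℓN hℓS) (ℓ : CuspForm.heckeAlgebra N 2 S) k)
              ∈ IsLocalRing.maximalIdeal T ^ n := by
  obtain ⟨L, hL, hcont⟩ := H.ρ.isAdicContinuous n
  refine ⟨L, hL, fun g s k hgs ℓ hℓ hℓN hℓS A hA hs => ?_⟩
  have h1 : ∀ x ∈ L, ((s ^ k)⁻¹ * g) x = x := by
    intro x hx
    rw [AlgEquiv.mul_apply, hgs x hx, ← AlgEquiv.mul_apply, inv_mul_cancel, AlgEquiv.one_apply]
  have h2 := hcont _ h1
  have h3 : H.ρ.ρ g = H.ρ.ρ s ^ k * H.ρ.ρ ((s ^ k)⁻¹ * g) := by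
    rw [← map_pow, ← map_mul, mul_inv_cancel_left]
  have h4 : LinearMap.trace T H.ρ.V (H.ρ.ρ s ^ k) =
      H.π (lucasV (CuspForm.heckeAlgebra.T hℓ hℓN hℓS) (ℓ : CuspForm.heckeAlgebra N 2 S) k) := by
    rw [map_lucasV, map_natCast]
    exact trace_pow H.ρ.finrank_eq (H.charpoly_frob ℓ hℓ hℓN hℓS A hA s hs) k
  rw [← h4, h3, ← map_sub]
  have h5 : H.ρ.ρ s ^ k * H.ρ.ρ ((s ^ k)⁻¹ * g) - H.ρ.ρ s ^ k =
      H.ρ.ρ s ^ k * (H.ρ.ρ ((s ^ k)⁻¹ * g) - 1) := by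
    rw [mul_sub, mul_one]
  rw [h5]
  exact trace_mul_mem _ _ _ fun v => h2 v

end Fermat.Agent.S31
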