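import Fermat.Agent.S53.AbsIrr

/-!
# S31, package [a] TRACE-KILL

`T` local, `ρ : GaloisRepAdic T` residually absolutely irreducible.  Then the `ρ g` span
`End_T V` (Burnside modulo the maximal ideal + Nakayama), so an element `τ` with
`tr ρ(τ g) = tr ρ(g)` for all `g` satisfies `ρ τ = 1`.
-/

set_option autoImplicit false

namespace Fermat.Agent.S31

open IsLocalRing Matrix Module Fermat.Agent.S53
open scoped TensorProduct

variable {T : Type} [CommRing T] [IsLocalRing T]

/-- Nakayama for `2 × 2` matrices: a family of matrices spanning modulo the maximal ideal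
spans. -/
theorem span_eq_top_of_residue {ι : Type*} (r : ι → M2 T)
    (h : Submodule.span (ResidueField T) (Set.range fun g => (r g).map (residue T)) = ⊤) :
    Submodule.span T (Set.range r) = ⊤ := by
  rw [eq_top_iff]
  refine Submodule.le_of_le_smul_of_le_jacobson_bot (I := maximalIdeal T)
    (Module.Finite.fg_top) (IsLocalRing.maximalIdeal_le_jacobson _) ?_
  intro M _
  have hM : M.map (residue T) ∈
      Submodule.span (ResidueField T) (Set.range fun g => (r g).map (residue T)) :=
    h ▸ Submodule.mem_top
  obtain ⟨c, hc⟩ := (Finsupp.mem_span_range_iff_exists_finsupp).mp hM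
  obtain ⟨a, ha⟩ := Finsupp.mapRange_surjective (residue T) (map_zero _) residue_surjective c
  have hsum : (a.sum fun g x => x • r g) ∈ Submodule.span T (Set.range r) :=
    Submodule.sum_mem _ fun g _ => Submodule.smul_mem _ _ (Submodule.subset_span ⟨g, rfl⟩)
  have hdiff : M - (a.sum fun g x => x • r g) ∈ maximalIdeal T • (⊤ : Submodule T (M2 T)) := by
    have hent : ∀ i j, (M - (a.sum fun g x => x • r g)) i j ∈ maximalIdeal T := by
      intro i j
      rw [← residue_eq_zero_iff, Matrix.sub_apply, map_sub, sub_eq_zero]
      have h1 := congrFun (congrFun hc i) j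
      rw [← ha, Finsupp.sum_mapRange_index (by intro g; simp)] at h1
      simp only [Finsupp.sum, Matrix.sum_apply, Matrix.smul_apply, Matrix.map_apply,
        smul_eq_mul] at h1 ⊢
      rw [← h1, map_sum]
      simp
    rw [Matrix.matrix_eq_sum_single (M - (a.sum fun g x => x • r g))]
    refine Submodule.sum_mem _ fun i _ => Submodule.sum_mem _ fun j _ => ?_
    have : Matrix.single i j ((M - (a.sum fun g x => x • r g)) i j) =
        ((M - (a.sum fun g x => x • r g)) i j) • Matrix.single i j (1 : T) := by
      rw [Matrix.smul_single, smul_eq_mul, mul_one]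
    rw [this]
    exact Submodule.smul_mem_smul (hent i j) Submodule.mem_top
  have : M = (a.sum fun g x => x • r g) + (M - (a.sum fun g x => x • r g)) := by abel
  rw [this]
  exact Submodule.add_mem_sup hsum hdiff

omit [IsLocalRing T] in
/-- The trace form on matrices is nondegenerate. -/
theorem eq_zero_of_trace_mul (X : M2 T) (h : ∀ Y : M2 T, (X * Y).trace = 0) : X = 0 := by
  ext i j
  have := h (Matrix.single j i 1)
  rw [Matrix.trace_mul_comm, Matrix.trace_single_mul] at this
  simpa using this

/-- The matrices of a residually absolutely irreducible representation span all matrices. -/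
theorem span_matOfBasis_eq_top (ρ : GaloisRepAdic T) (habs : ρ.residual.IsAbsolutelyIrreducible)
    (b : Basis (Fin 2) T ρ.V) : Submodule.span T (Set.range (matOfBasis ρ b)) = ⊤ := by
  apply span_eq_top_of_residue
  let bbar : Basis (Fin 2) (ResidueField T) ρ.residual.V :=
    Algebra.TensorProduct.basis (ResidueField T) b
  have h1 := span_eq_top_of_matIrred_map (algebraMap (ResidueField T)
    (AlgebraicClosure (ResidueField T))) (resMat ρ.residual bbar)
    (matIrred_resMat ρ.residual bbar habs)
  have h2 : (fun g => (matOfBasis ρ b g).map (residue T)) = resMat ρ.residual bbar := by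
    funext g
    rw [resMat_apply, matOfBasis_apply]
    exact (LinearMap.toMatrix_baseChange (A := ResidueField T) (ρ.ρ g) b b).symm
  rw [h2]
  exact h1

/-- **TRACE-KILL**. -/
theorem eq_one_of_trace (ρ : GaloisRepAdic T) (habs : ρ.residual.IsAbsolutelyIrreducible)
    (τ : GQ) (h : ∀ g : GQ, ρ.trace (τ * g) = ρ.trace g) : ρ.ρ τ = 1 := by
  let b : Basis (Fin 2) T ρ.V := Module.finBasisOfFinrankEq T ρ.V ρ.finrank_eq
  have htr : ∀ g : GQ, ρ.trace g = (matOfBasis ρ b g).trace := fun g => by
    rw [matOfBasis_apply]
    exact LinearMap.trace_eq_matrix_trace T b (ρ.ρ g)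
  have hX : matOfBasis ρ b τ - 1 = 0 := by
    refine eq_zero_of_trace_mul _ fun Y => ?_
    have hY : Y ∈ Submodule.span T (Set.range (matOfBasis ρ b)) :=
      span_matOfBasis_eq_top ρ habs b ▸ Submodule.mem_top
    induction hY using Submodule.span_induction with
    | mem x hx =>
      obtain ⟨g, rfl⟩ := hx
      rw [sub_mul, one_mul, ← map_mul, Matrix.trace_sub, ← htr, ← htr, h g, sub_self]
    | zero => simp
    | add x y _ _ hx hy => rw [mul_add, Matrix.trace_add, hx, hy, add_zero]
    | smul a x _ hx => rw [mul_smul_comm, Matrix.trace_smul, hx, smul_zero]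
  have h1 : matOfBasis ρ b τ = 1 := sub_eq_zero.mp hX
  rw [matOfBasis_apply] at h1
  apply (LinearMap.toMatrix b b).injective
  rw [h1, LinearMap.toMatrix_one]

end Fermat.Agent.S31
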